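import Fermat.Agent.S30.Defs
import Fermat.Agent.Cheb.FrobZeta
import Fermat.Prelude.Def_GaloisRep_ComplexConjugation

/-!
# S30 library, leaf (CY): the `p`-adic cyclotomic character
-/

set_option autoImplicit false
set_option linter.style.haveILetI false

namespace Fermat.Agent.S30Lib

open Polynomial Matrix

/-- the `p`-adic cyclotomic character of `G_ℚ` -/
noncomputable def cy_kappa (p : ℕ) [Fact p.Prime] : GQ →* ℤ_[p]ˣ :=
  (cyclotomicCharacter Qbar p).comp (MulSemiringAction.toRingAut GQ Qbar)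

theorem cy_toZModPow_eq (p : ℕ) [Fact p.Prime] (n : ℕ) {ζ : Qbar}
    (hζ : IsPrimitiveRoot ζ (p ^ n)) (σ : GQ) (a : ℕ) (h : σ ζ = ζ ^ a) :
    PadicInt.toZModPow n ((cy_kappa p σ : ℤ_[p]ˣ) : ℤ_[p]) = (a : ZMod (p ^ n)) := by
  haveI : NeZero (p ^ n) := ⟨pow_ne_zero n (Fact.out : p.Prime).ne_zero⟩
  have hspec := cyclotomicCharacter.spec p (n := n) (MulSemiringAction.toRingAut GQ Qbar σ) ζ
    hζ.pow_eq_one
  have h1 : (MulSemiringAction.toRingAut GQ Qbar σ) ζ = σ ζ := rfl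
  rw [h1, h] at hspec
  have hfin : IsOfFinOrder ζ :=
    isOfFinOrder_iff_pow_eq_one.2 ⟨p ^ n, NeZero.pos _, hζ.pow_eq_one⟩
  have h2 := hfin.pow_eq_pow_iff_modEq.1 hspec
  rw [← hζ.eq_orderOf, ← ZMod.natCast_eq_natCast_iff, ZMod.natCast_zmod_val] at h2
  exact h2.symm

/-- inertia at `ℓ` fixes the roots of unity of order prime to `ℓ` -/
theorem cy_inertia_zeta (A : ValuationSubring Qbar) {ℓ m : ℕ} (hℓ : ℓ.Prime)
    (hA : A.LiesOverPrime ℓ) (hm : ¬ ℓ ∣ m) (σ : GQ) (hσ : σ ∈ A.inertiaSubgroupIn ℚ) (ζ : Qbar)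
    (hζ : ζ ^ m = 1) : σ ζ = ζ := by
  have hm0 : m ≠ 0 := by
    rintro rfl
    exact hm (dvd_zero _)
  obtain ⟨s, hs, rfl⟩ := hσ
  have hζA : ζ ∈ A := by
    apply Fermat.Agent.FrobLib.integral_mem_valuationSubring
    exact IsIntegral.of_pow (Nat.pos_of_ne_zero hm0) (hζ ▸ isIntegral_one)
  have hs' : MulSemiringAction.toRingAut (A.decompositionSubgroup ℚ)
      (IsLocalRing.ResidueField A) s = 1 := hs
  have h0 : s • IsLocalRing.residue A ⟨ζ, hζA⟩ = IsLocalRing.residue A ⟨ζ, hζA⟩ := by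
    have := congrArg (fun f => f (IsLocalRing.residue A ⟨ζ, hζA⟩)) hs'
    simpa using this
  rw [← IsLocalRing.ResidueField.residue_smul, ← sub_eq_zero, ← map_sub,
    IsLocalRing.residue_eq_zero_iff] at h0
  apply Fermat.Agent.ChebLib.Z.eq_of_sub_mem_nonunits A hℓ hA hm _ hζ
  · rw [ValuationSubring.mem_nonunits_iff_exists_mem_maximalIdeal]
    exact ⟨_, h0⟩
  · rw [← map_pow, hζ, map_one]

/-- complex conjugation inverts roots of unity -/
theorem cy_conj_zeta {m : ℕ} (hm : m ≠ 0) (ζ : Qbar) (hζ : ζ ^ m = 1) :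
    complexConjugation ζ = ζ⁻¹ := by
  apply complexEmbedding.toRingHom.injective
  show complexEmbedding (complexConjugation ζ) = complexEmbedding ζ⁻¹
  rw [complexEmbedding_complexConjugation, map_inv₀]
  have h1 : (complexEmbedding ζ) ^ m = 1 := by rw [← map_pow, hζ, map_one]
  exact (Complex.inv_eq_conj (Complex.norm_eq_one_of_pow_eq_one h1 hm)).symm

theorem exists_padic_cyclo (p : ℕ) [Fact p.Prime] :
    ∃ κ : GQ →* ℤ_[p]ˣ,
      (∀ n : ℕ, ∃ L : IntermediateField ℚ Qbar, FiniteDimensional ℚ L ∧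
        ∀ σ : GQ, (∀ x ∈ L, σ x = x) → PadicInt.toZModPow n ((κ σ : ℤ_[p]ˣ) : ℤ_[p]) = 1) ∧
      (∀ ℓ : ℕ, ℓ.Prime → ℓ ≠ p → ∀ A : ValuationSubring Qbar, A.LiesOverPrime ℓ →
        ∀ σ : GQ, A.IsFrobeniusAt σ ℓ → ((κ σ : ℤ_[p]ˣ) : ℤ_[p]) = (ℓ : ℤ_[p])) ∧
      (∀ ℓ : ℕ, ℓ.Prime → ℓ ≠ p → ∀ A : ValuationSubring Qbar, A.LiesOverPrime ℓ →
        ∀ σ ∈ A.inertiaSubgroupIn ℚ, κ σ = 1) ∧
      κ complexConjugation = -1 := by
  have hp : p.Prime := Fact.out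
  have hne : ∀ n, NeZero (p ^ n) := fun n => ⟨pow_ne_zero n hp.ne_zero⟩
  have hex : ∀ n, ∃ ζ : Qbar, IsPrimitiveRoot ζ (p ^ n) := fun n =>
    haveI := hne n
    HasEnoughRootsOfUnity.exists_primitiveRoot Qbar (p ^ n)
  choose ζ hζ using hex
  have hnd : ∀ ℓ : ℕ, ℓ.Prime → ℓ ≠ p → ∀ n, ¬ ℓ ∣ p ^ n := fun ℓ hℓ hℓp n h =>
    hℓp ((Nat.prime_dvd_prime_iff_eq hℓ hp).mp (hℓ.dvd_of_dvd_pow h))
  refine ⟨cy_kappa p, ?_, ?_, ?_, ?_⟩
  · intro n
    have hint : IsIntegral ℤ (ζ n) := (hζ n).isIntegral (Nat.pos_of_ne_zero (hne n).out)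
    refine ⟨IntermediateField.adjoin ℚ {ζ n},
      IntermediateField.adjoin.finiteDimensional (hint.tower_top), ?_⟩
    intro σ hσ
    have h1 : σ (ζ n) = ζ n := hσ _ (IntermediateField.mem_adjoin_simple_self ℚ (ζ n))
    rw [cy_toZModPow_eq p n (hζ n) σ 1 (by rw [h1, pow_one]), Nat.cast_one]
  · intro ℓ hℓ hℓp A hA σ hσ
    apply PadicInt.ext_of_toZModPow.mp
    intro n
    rw [cy_toZModPow_eq p n (hζ n) σ ℓ
      (Fermat.Agent.ChebLib.frobenius_zeta A σ ℓ (p ^ n) hℓ hA hσ (hnd ℓ hℓ hℓp n) _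
        (hζ n).pow_eq_one), map_natCast]
  · intro ℓ hℓ hℓp A hA σ hσ
    apply Units.ext
    apply PadicInt.ext_of_toZModPow.mp
    intro n
    have h1 := cy_inertia_zeta A hℓ hA (hnd ℓ hℓ hℓp n) σ hσ (ζ n) (hζ n).pow_eq_one
    rw [cy_toZModPow_eq p n (hζ n) σ 1 (by rw [h1, pow_one]), Nat.cast_one, Units.val_one,
      map_one]
  · apply Units.ext
    apply PadicInt.ext_of_toZModPow.mp
    intro n
    have h0 : ζ n ≠ 0 := (hζ n).ne_zero (hne n).out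
    have h1 : complexConjugation (ζ n) = ζ n ^ (p ^ n - 1) := by
      rw [cy_conj_zeta (hne n).out (ζ n) (hζ n).pow_eq_one]
      apply inv_eq_of_mul_eq_one_right
      rw [← pow_succ', Nat.sub_add_cancel (Nat.pos_of_ne_zero (hne n).out), (hζ n).pow_eq_one]
    rw [cy_toZModPow_eq p n (hζ n) complexConjugation _ h1, Units.val_neg, Units.val_one, map_neg,
      map_one, Nat.cast_sub (Nat.pos_of_ne_zero (hne n).out), ZMod.natCast_self, Nat.cast_one,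
      zero_sub]

end Fermat.Agent.S30Lib
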