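import Mathlib

/-!
# S30 library, (EV): a character of a commutative ring of integral matrices occurs as an
eigencharacter over any field of characteristic zero
-/

set_option autoImplicit false

namespace Fermat.Agent.S30Lib

open Polynomial Matrix TensorProduct

/-- in an artinian ring every maximal ideal is the annihilator of an element -/
theorem ev_exists_ann {R : Type*} [CommRing R] [IsArtinianRing R] (n : Ideal R) [n.IsMaximal] :
    ∃ e : R, e ≠ 0 ∧ ∀ b ∈ n, b * e = 0 := by
  have h1 : n ∈ (Module.annihilator R R).minimalPrimes := by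
    refine ⟨⟨inferInstance, ?_⟩, ?_⟩
    · intro x hx
      have : x = 0 := by
        have := Module.mem_annihilator.1 hx 1
        simpa using this
      rw [this]; exact n.zero_mem
    · rintro q ⟨hq, -⟩ hqn
      have := hq
      have hqm : q.IsMaximal := IsArtinianRing.isMaximal_of_isPrime q
      exact (hqm.eq_of_le (Ideal.IsMaximal.ne_top inferInstance) hqn).ge
  have h2 : IsAssociatedPrime n R := Module.associatedPrimes.minimalPrimes_annihilator_subset_associatedPrimes R R h1
  obtain ⟨-, e, he⟩ := isAssociatedPrime_iff.1 h2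
  refine ⟨e, ?_, ?_⟩
  · rintro rfl
    apply Ideal.IsMaximal.ne_top (I := n) inferInstance
    rw [he, Ideal.eq_top_iff_one, Submodule.mem_colon_singleton]
    simp
  · intro b hb
    rw [he, Submodule.mem_colon_singleton] at hb
    simpa using hb

theorem exists_eigenvector {T : Type*} [CommRing T] {r : ℕ}
    (Θ : T →+* Matrix (Fin r) (Fin r) ℤ) (hΘ : Function.Injective Θ)
    {E : Type*} [Field E] [CharZero E] (χ : T →+* E) :
    ∃ v : Fin r → E, v ≠ 0 ∧ ∀ t : T, (Θ t).map (Int.castRingHom E) *ᵥ v = χ t • v := by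
  have hfin : Module.Finite ℤ T := Module.Finite.of_injective Θ.toIntAlgHom.toLinearMap hΘ
  have hflat : Module.Flat ℤ E := by
    rw [Module.Flat.flat_iff_torsion_eq_bot_of_isBezout]
    rw [← Submodule.isTorsionFree_iff_torsion_eq_bot]
    infer_instance
  let Φ : E ⊗[ℤ] T →ₐ[ℤ] Matrix (Fin r) (Fin r) E :=
    ((matrixEquivTensor (Fin r) ℤ E).symm.toAlgHom).comp
      (Algebra.TensorProduct.map (AlgHom.id ℤ E) Θ.toIntAlgHom)
  have hΦ : Function.Injective Φ := by
    have h1 : Function.Injective (Θ.toIntAlgHom.toLinearMap.lTensor E) :=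
      Module.Flat.lTensor_preserves_injective_linearMap _ hΘ
    exact (matrixEquivTensor (Fin r) ℤ E).symm.injective.comp h1
  have hΦt : ∀ (a : E) (t : T), Φ (a ⊗ₜ t) = a • (Θ t).map (Int.castRingHom E) := by
    intro a t
    rfl
  have hart : IsArtinianRing (E ⊗[ℤ] T) := IsArtinianRing.of_finite E _
  let χE : E ⊗[ℤ] T →ₐ[E] E :=
    Algebra.TensorProduct.lift (AlgHom.id E E) χ.toIntAlgHom (fun _ _ => Commute.all _ _)
  have hχE : ∀ (a : E) (t : T), χE (a ⊗ₜ t) = a * χ t := by
    intro a t
    simp [χE]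
  have hmax : (RingHom.ker (χE : E ⊗[ℤ] T →+* E)).IsMaximal :=
    RingHom.ker_isMaximal_of_surjective _ (fun a => ⟨a ⊗ₜ 1, by simp [χE]⟩)
  obtain ⟨e, he0, he⟩ := ev_exists_ann (RingHom.ker (χE : E ⊗[ℤ] T →+* E))
  have hm0 : Φ e ≠ 0 := fun h => he0 (hΦ (by rw [h, map_zero]))
  have hm : ∀ t : T, (Θ t).map (Int.castRingHom E) * Φ e = χ t • Φ e := by
    intro t
    have h1 : ((1 : E) ⊗ₜ[ℤ] t - (χ t) ⊗ₜ[ℤ] (1 : T)) * e = 0 := by
      apply he
      rw [RingHom.mem_ker]
      show χE _ = 0
      rw [map_sub, hχE, hχE]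
      simp
    have h2 := congrArg Φ h1
    rw [map_mul, map_sub, hΦt, hΦt, map_zero, sub_mul, sub_eq_zero] at h2
    simpa using h2
  obtain ⟨i, j, hij⟩ : ∃ i j, Φ e i j ≠ 0 := by
    by_contra hcon
    push Not at hcon
    exact hm0 (Matrix.ext hcon)
  refine ⟨fun i => Φ e i j, fun h => hij (congrFun h i), fun t => ?_⟩
  funext k
  have := congrFun (congrFun (hm t) k) j
  rw [Matrix.mul_apply] at this
  simpa [Matrix.mulVec, dotProduct] using this

end Fermat.Agent.S30Lib
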