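import Mathlib

/-!
# S30 library, (PJ): a ring homomorphism `ℤ_p → O` for a complete local ring with `p ∈ 𝔪`
-/

set_option autoImplicit false

namespace Fermat.Agent.S30Lib

open Polynomial Matrix

/-- the ring homomorphism `ℤ / p ^ n → O / 𝔪 ^ n` -/
noncomputable def pj_g (p : ℕ) {O : Type} [CommRing O] [IsLocalRing O]
    (hp : (p : O) ∈ IsLocalRing.maximalIdeal O) (n : ℕ) :
    ZMod (p ^ n) →+* O ⧸ IsLocalRing.maximalIdeal O ^ n :=
  (Ideal.Quotient.lift (Ideal.span {((p ^ n : ℕ) : ℤ)})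
    (Int.castRingHom (O ⧸ IsLocalRing.maximalIdeal O ^ n)) (by
      intro a ha
      obtain ⟨b, rfl⟩ := Ideal.mem_span_singleton.1 ha
      have h1 : (((p ^ n : ℕ) : ℤ) : O ⧸ IsLocalRing.maximalIdeal O ^ n) = 0 := by
        have h2 : Ideal.Quotient.mk (IsLocalRing.maximalIdeal O ^ n) ((p : O) ^ n) = 0 :=
          Ideal.Quotient.eq_zero_iff_mem.2 (Ideal.pow_mem_pow hp n)
        rw [← h2]
        simp
      rw [map_mul, eq_intCast, h1, zero_mul])).comp
    (Int.quotientSpanNatEquivZMod (p ^ n)).symm.toRingHom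

theorem exists_padicInt_hom (p : ℕ) [Fact p.Prime] (O : Type) [CommRing O] [IsLocalRing O]
    [IsAdicComplete (IsLocalRing.maximalIdeal O) O] (hp : (p : O) ∈ IsLocalRing.maximalIdeal O) :
    Nonempty (ℤ_[p] →+* O) := by
  refine ⟨IsAdicComplete.liftRingHom (IsLocalRing.maximalIdeal O)
    (fun n => (pj_g p hp n).comp (PadicInt.toZModPow n)) ?_⟩
  intro m n hle
  rw [← PadicInt.zmod_cast_comp_toZModPow m n hle, ← RingHom.comp_assoc, ← RingHom.comp_assoc]
  congr 1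
  exact Subsingleton.elim _ _

theorem padicInt_hom_mem (p : ℕ) [Fact p.Prime] {O : Type} [CommRing O] [IsLocalRing O]
    (hp : (p : O) ∈ IsLocalRing.maximalIdeal O) (j : ℤ_[p] →+* O) (n : ℕ) (x : ℤ_[p])
    (hx : PadicInt.toZModPow n x = 0) : j x ∈ IsLocalRing.maximalIdeal O ^ n := by
  have h1 : x ∈ RingHom.ker (PadicInt.toZModPow n : ℤ_[p] →+* ZMod (p ^ n)) := hx
  rw [PadicInt.ker_toZModPow] at h1
  obtain ⟨y, rfl⟩ := Ideal.mem_span_singleton.1 h1
  rw [map_mul, map_pow, map_natCast]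
  exact Ideal.mul_mem_right _ _ (Ideal.pow_mem_pow hp n)

end Fermat.Agent.S30Lib
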