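import Fermat.Agent.S30.Defs

/-!
# S30 library, (PT): a compatible system of matrix representations modulo `p ^ n` comes from a
`ℤ_p`-valued matrix representation
-/

set_option autoImplicit false

namespace Fermat.Agent.S30Lib

open Polynomial Matrix

/-- a compatible sequence in `ℤ / p ^ n` is the sequence of reductions of a `p`-adic integer -/
theorem pt_exists_lim (p : ℕ) [Fact p.Prime] (x : (n : ℕ) → ZMod (p ^ n))
    (hx : ∀ n, ZMod.castHom (pow_dvd_pow p (Nat.le_succ n)) (ZMod (p ^ n)) (x (n + 1)) = x n) :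
    ∃ y : ℤ_[p], ∀ n, PadicInt.toZModPow n y = x n := by
  have hne : ∀ n, NeZero (p ^ n) := fun n => ⟨pow_ne_zero n (Fact.out : p.Prime).ne_zero⟩
  have hi : ∀ i, (p : ℤ) ^ i ∣ ((x (i + 1)).val : ℤ) - ((x i).val : ℤ) := by
    intro i
    have h1 : ((((x (i + 1)).val : ℤ) - ((x i).val : ℤ) : ℤ) : ZMod (p ^ i)) = 0 := by
      push_cast
      rw [ZMod.natCast_zmod_val, sub_eq_zero, ← hx i, ZMod.castHom_apply, ZMod.natCast_val]
    have h2 := (ZMod.intCast_zmod_eq_zero_iff_dvd _ _).1 h1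
    exact_mod_cast h2
  refine ⟨PadicInt.ofIntSeq _ (PadicInt.isCauSeq_padicNorm_of_pow_dvd_sub
    (fun n => ((x n).val : ℤ)) p hi), fun n => ?_⟩
  rw [PadicInt.toZModPow_ofIntSeq_of_pow_dvd_sub _ p hi]
  simp

/-- two `ℤ_p`-matrices with the same reductions are equal -/
theorem padic_matrix_ext (p : ℕ) [Fact p.Prime] {r : ℕ} {A B : Matrix (Fin r) (Fin r) ℤ_[p]}
    (h : ∀ n, A.map (PadicInt.toZModPow n) = B.map (PadicInt.toZModPow n)) : A = B := by
  refine Matrix.ext fun i j => ?_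
  apply PadicInt.ext_of_toZModPow.1
  intro n
  exact congrFun (congrFun (h n) i) j

/-- a compatible system of matrix representations mod `p ^ n` is the reduction of a `ℤ_p`-one -/
theorem exists_padic_lift (p : ℕ) [Fact p.Prime] {G : Type} [Monoid G] {r : ℕ}
    (ρ : (n : ℕ) → G →* Matrix (Fin r) (Fin r) (ZMod (p ^ n)))
    (hρ : ∀ (n : ℕ) (σ : G),
      (ρ (n + 1) σ).map (ZMod.castHom (pow_dvd_pow p (Nat.le_succ n)) (ZMod (p ^ n))) = ρ n σ) :
    ∃ Mp : G →* Matrix (Fin r) (Fin r) ℤ_[p], ∀ n σ, (Mp σ).map (PadicInt.toZModPow n) = ρ n σ := by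
  have h1 : ∀ (σ : G) (i j : Fin r), ∃ y : ℤ_[p], ∀ n, PadicInt.toZModPow n y = ρ n σ i j :=
    fun σ i j => pt_exists_lim p (fun n => ρ n σ i j)
      (fun n => congrFun (congrFun (hρ n σ) i) j)
  choose y hy using h1
  have hmap : ∀ n σ, (Matrix.of (y σ)).map (PadicInt.toZModPow n) = ρ n σ := by
    intro n σ
    ext i j
    exact hy σ i j n
  refine ⟨{ toFun := fun σ => Matrix.of (y σ), map_one' := ?_, map_mul' := ?_ }, hmap⟩
  · apply padic_matrix_ext p
    intro n
    rw [hmap, map_one]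
    simp
  · intro σ τ
    apply padic_matrix_ext p
    intro n
    rw [Matrix.map_mul, hmap, hmap, hmap, map_mul]

end Fermat.Agent.S30Lib
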