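import Fermat.Agent.S30.Engine
import Fermat.Agent.S30.PadicTrunk
import Fermat.Agent.S30.PadicHom
import Fermat.Agent.S30.Cyclo
import Fermat.Agent.S30.Eigen
import Fermat.Agent.ES.KDefs
import Fermat.Prelude.Def_CuspForm_HeckeGaloisRepDatum

/-!
# S30 library, (W30): S30 from the statement of the trunk
-/

set_option autoImplicit false
set_option linter.style.haveILetI false
set_option linter.overlappingInstances false

namespace Fermat.Agent.S30Lib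

open Polynomial Matrix

/-- the Hecke algebra away from `S` is contained in the Hecke algebra generated by the `T_ℓ`,
`ℓ ∤ N` -/
theorem w30_le (N : ℕ) [NeZero N] (S : Finset ℕ) (hNS : ∀ q : ℕ, q.Prime → q ∣ N → q ∈ S) :
    CuspForm.heckeAlgebra N 2 (↑S : Set ℕ) ≤ CuspForm.heckeAlgebra N 2 {q : ℕ | q ∣ N} := by
  apply Algebra.adjoin_mono
  rintro T (⟨ℓ, hℓ, hℓN, -, rfl⟩ | ⟨q, hqN, hq, hqS, rfl⟩)
  · exact CuspForm.heckeTLin_mem_heckeGenerators hℓ hℓN hℓN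
  · exact absurd (hNS q hq hqN) hqS

theorem w30_map_map {r : ℕ} {R R' : Type*} [CommRing R] [CommRing R'] (f : R →+* R')
    (A : Matrix (Fin r) (Fin r) ℤ) :
    (A.map (Int.castRingHom R)).map f = A.map (Int.castRingHom R') := by
  ext i j
  simp

open Fermat.Agent.ESLib in
/-- the trunk over `O` -/
theorem w30_trunk_O {N p : ℕ} [NeZero N] [Fact p.Prime] {r : ℕ}
    {Θ : TT0 N →+* Matrix (Fin r) (Fin r) ℤ}
    {ρ : (n : ℕ) → ESLib.GQ →* Matrix (Fin r) (Fin r) (ZMod (p ^ n))} (h : IsESData N p r Θ ρ)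
    (O : Type) [CommRing O] [IsLocalRing O] [IsAdicComplete (IsLocalRing.maximalIdeal O) O]
    (hp : (p : O) ∈ IsLocalRing.maximalIdeal O) :
    ∃ M : GQ →* Matrix (Fin r) (Fin r) O, IsContM M ∧
      (∀ (σ : GQ) (T : TT0 N), M σ * (Θ T).map (Int.castRingHom O) =
        (Θ T).map (Int.castRingHom O) * M σ) ∧
      (∀ q : ℕ, q.Prime → ¬ q ∣ N * p → ∀ A : ValuationSubring Qbar, A.LiesOverPrime q →
        ∀ σ ∈ A.inertiaSubgroupIn ℚ, M σ = 1) ∧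
      (∀ (ℓ : ℕ) (hℓ : ℓ.Prime) (hℓN : ¬ ℓ ∣ N), ℓ ≠ p →
        ∀ A : ValuationSubring Qbar, A.LiesOverPrime ℓ → ∀ σ : GQ, A.IsFrobeniusAt σ ℓ →
          M σ * M σ - (Θ (CuspForm.heckeAlgebra.T hℓ hℓN hℓN)).map (Int.castRingHom O) * M σ
            + (ℓ : Matrix (Fin r) (Fin r) O) = 0) := by
  obtain ⟨Mp, hMp⟩ := exists_padic_lift p ρ h.compat
  obtain ⟨j⟩ := exists_padicInt_hom p O hp
  have hred : ∀ (n : ℕ) (T : TT0 N),
      ((Θ T).map (Int.castRingHom ℤ_[p])).map (PadicInt.toZModPow n) = redM p n (Θ T) :=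
    fun n T => w30_map_map _ _
  refine ⟨mapM j Mp, ?_, ?_, ?_, ?_⟩
  · intro n
    obtain ⟨L, hL, hL1⟩ := h.level n
    refine ⟨L, hL, fun σ hσ i k => ?_⟩
    have h1 : (Mp σ).map (PadicInt.toZModPow n) = 1 := by rw [hMp, hL1 σ hσ]
    have h2 : (mapM j Mp σ - 1) i k = j ((Mp σ - 1) i k) := by
      by_cases hik : i = k
      · subst hik; simp
      · simp [hik]
    rw [h2]
    apply padicInt_hom_mem p hp
    have h3 := congrFun (congrFun h1 i) k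
    rw [Matrix.map_apply] at h3
    rw [Matrix.sub_apply, map_sub, h3]
    by_cases hik : i = k
    · subst hik; simp
    · simp [hik]
  · intro σ T
    have h1 : Mp σ * (Θ T).map (Int.castRingHom ℤ_[p]) =
        (Θ T).map (Int.castRingHom ℤ_[p]) * Mp σ := by
      apply padic_matrix_ext p
      intro n
      rw [Matrix.map_mul, Matrix.map_mul, hMp, hred]
      exact h.comm n σ T
    have h2 := congrArg (fun A => A.map j) h1
    simp only [Matrix.map_mul, w30_map_map] at h2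
    exact h2
  · intro q hq hqN A hA σ hσ
    have h1 : Mp σ = 1 := by
      apply padic_matrix_ext p
      intro n
      rw [hMp, h.unram n q hq hqN A hA σ hσ]
      simp
    rw [mapM_apply, h1]
    simp
  · intro ℓ hℓ hℓN hℓp A hA σ hσ
    have h1 : Mp σ * Mp σ - (Θ (CuspForm.heckeAlgebra.T hℓ hℓN hℓN)).map (Int.castRingHom ℤ_[p])
        * Mp σ + (ℓ : Matrix (Fin r) (Fin r) ℤ_[p]) = 0 := by
      apply padic_matrix_ext p
      intro n
      have h2 := h.es n ℓ hℓ hℓN hℓp A hA σ hσ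
      have h3 : ((ℓ : Matrix (Fin r) (Fin r) ℤ_[p])).map (PadicInt.toZModPow n) =
          (ℓ : Matrix (Fin r) (Fin r) (ZMod (p ^ n))) :=
        map_natCast (PadicInt.toZModPow n).mapMatrix ℓ
      rw [Matrix.map_add _ (map_add _), Matrix.map_sub _ (map_sub _), Matrix.map_mul,
        Matrix.map_mul, hMp, hred, h3, h2]
      simp
    have h2 := congrArg (fun A => A.map j) h1
    have h3 : ((ℓ : Matrix (Fin r) (Fin r) ℤ_[p])).map j = (ℓ : Matrix (Fin r) (Fin r) O) :=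
      map_natCast j.mapMatrix ℓ
    simp only [Matrix.map_add _ (map_add j), Matrix.map_sub _ (map_sub j), Matrix.map_mul,
      w30_map_map, h3] at h2
    rw [mapM_apply, h2]
    simp

/-- the cyclotomic character over `O` -/
theorem w30_cyclo_O (p : ℕ) [Fact p.Prime]
    (O : Type) [CommRing O] [IsLocalRing O] [IsAdicComplete (IsLocalRing.maximalIdeal O) O]
    (hp : (p : O) ∈ IsLocalRing.maximalIdeal O) :
    ∃ ε : GQ →* Oˣ, IsContC ε ∧
      (∀ ℓ : ℕ, ℓ.Prime → ℓ ≠ p → ∀ A : ValuationSubring Qbar, A.LiesOverPrime ℓ →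
        ∀ σ : GQ, A.IsFrobeniusAt σ ℓ → ((ε σ : Oˣ) : O) = (ℓ : O)) ∧
      (∀ ℓ : ℕ, ℓ.Prime → ℓ ≠ p → ∀ A : ValuationSubring Qbar, A.LiesOverPrime ℓ →
        ∀ σ ∈ A.inertiaSubgroupIn ℚ, ε σ = 1) ∧
      ε complexConjugation = -1 := by
  obtain ⟨κ, hκ1, hκ2, hκ3, hκ4⟩ := exists_padic_cyclo p
  obtain ⟨j⟩ := exists_padicInt_hom p O hp
  refine ⟨(Units.map (j : ℤ_[p] →* O)).comp κ, ?_, ?_, ?_, ?_⟩
  · intro n
    obtain ⟨L, hL, hL1⟩ := hκ1 n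
    refine ⟨L, hL, fun σ hσ => ?_⟩
    have h1 : (((Units.map (j : ℤ_[p] →* O)).comp κ σ : Oˣ) : O) - 1 =
        j (((κ σ : ℤ_[p]ˣ) : ℤ_[p]) - 1) := by
      rw [map_sub, map_one]
      rfl
    rw [h1]
    apply padicInt_hom_mem p hp
    rw [map_sub, hL1 σ hσ, map_one, sub_self]
  · intro ℓ hℓ hℓp A hA σ hσ
    have h1 : (((Units.map (j : ℤ_[p] →* O)).comp κ σ : Oˣ) : O) =
        j ((κ σ : ℤ_[p]ˣ) : ℤ_[p]) := rfl
    rw [h1, hκ2 ℓ hℓ hℓp A hA σ hσ, map_natCast]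
  · intro ℓ hℓ hℓp A hA σ hσ
    rw [MonoidHom.comp_apply, hκ3 ℓ hℓ hℓp A hA σ hσ, map_one]
  · rw [MonoidHom.comp_apply, hκ4]
    apply Units.ext
    simp

open Fermat.Agent.ESLib in
theorem s30_of_trunk
    (trunk : ∀ (N p : ℕ) [NeZero N] [Fact p.Prime],
      ∃ (r : ℕ) (Θ : TT0 N →+* Matrix (Fin r) (Fin r) ℤ)
        (ρ : (n : ℕ) → ESLib.GQ →* Matrix (Fin r) (Fin r) (ZMod (p ^ n))), IsESData N p r Θ ρ) :
    ∀ (p : ℕ) [Fact p.Prime] (N : ℕ) [NeZero N] (S : Finset ℕ)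
      (_hpS : p ∈ S) (_hNS : ∀ q : ℕ, q.Prime → q ∣ N → q ∈ S)
      (𝒪' : Type) [CommRing 𝒪'] [IsDomain 𝒪'] [IsDiscreteValuationRing 𝒪']
      [IsAdicComplete (IsLocalRing.maximalIdeal 𝒪') 𝒪'] [Finite (IsLocalRing.ResidueField 𝒪')]
      [CharZero 𝒪'] (_hp𝒪' : (p : 𝒪') ∈ IsLocalRing.maximalIdeal 𝒪')
      (χ : CuspForm.heckeAlgebra N 2 (↑S : Set ℕ) →+* 𝒪'),
      ∃ (𝒪'' : Type) (_ : CommRing 𝒪'') (_ : IsDomain 𝒪'') (_ : IsDiscreteValuationRing 𝒪'')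
        (_ : IsAdicComplete (IsLocalRing.maximalIdeal 𝒪'') 𝒪'')
        (_ : Finite (IsLocalRing.ResidueField 𝒪'')) (_ : CharZero 𝒪'')
        (_ : Algebra 𝒪' 𝒪'') (_ : Module.Finite 𝒪' 𝒪'') (_ : IsLocalHom (algebraMap 𝒪' 𝒪'')),
      Function.Injective (algebraMap 𝒪' 𝒪'') ∧
      ∃ ρ : GaloisRepAdic 𝒪'',
        (∀ (ℓ : ℕ) (hℓ : ℓ.Prime) (hℓN : ¬ ℓ ∣ N) (hℓS : ℓ ∉ (↑S : Set ℕ)),
          ∀ A : ValuationSubring (AlgebraicClosure ℚ), A.LiesOverPrime ℓ →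
            ∀ σ : AlgebraicClosure ℚ ≃ₐ[ℚ] AlgebraicClosure ℚ, A.IsFrobeniusAt σ ℓ →
              LinearMap.charpoly (ρ.ρ σ) =
                X ^ 2 - C (algebraMap 𝒪' 𝒪'' (χ (CuspForm.heckeAlgebra.T hℓ hℓN hℓS))) * X
                  + C ((ℓ : 𝒪''))) ∧
        (∀ q : ℕ, q.Prime → ¬ q ∣ N → q ≠ p → ρ.IsUnramifiedAt q) := by
  intro p _ N _ S hpS hNS O _ _ _ _ _ _ hpO χ
  classical
  obtain ⟨r, Θ, ρ₀, hES⟩ := trunk N p
  obtain ⟨M, hMc, hMcomm, hMunr, hMes⟩ := w30_trunk_O hES O hpO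
  obtain ⟨ε, hεc, hεF, hεI, hεconj⟩ := w30_cyclo_O p O hpO
  -- the restriction of `Θ` to the Hecke algebra away from `S`
  let ι : CuspForm.heckeAlgebra N 2 (↑S : Set ℕ) →+* TT0 N :=
    (Subalgebra.inclusion (w30_le N S hNS)).toRingHom
  have hι : Function.Injective ι := Subalgebra.inclusion_injective _
  let E := FractionRing O
  let χE : CuspForm.heckeAlgebra N 2 (↑S : Set ℕ) →+* E := (algebraMap O E).comp χ
  obtain ⟨v₀, hv₀, hv₀e⟩ := exists_eigenvector (Θ.comp ι) (hES.inj.comp hι) χE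
  -- the eigenspace
  let W : Submodule E (Fin r → E) :=
    { carrier := {v | ∀ t, (Θ (ι t)).map (Int.castRingHom E) *ᵥ v = χE t • v}
      add_mem' := by
        intro v w hv hw t
        rw [Matrix.mulVec_add, hv t, hw t, smul_add]
      zero_mem' := by
        intro t
        rw [Matrix.mulVec_zero, smul_zero]
      smul_mem' := by
        intro c v hv t
        rw [Matrix.mulVec_smul, hv t, smul_comm] }
  have hWmem : ∀ v, v ∈ W ↔ ∀ t, (Θ (ι t)).map (Int.castRingHom E) *ᵥ v = χE t • v :=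
    fun v => Iff.rfl
  have hW0 : W ≠ ⊥ := by
    intro h
    have : v₀ ∈ W := hv₀e
    rw [h] at this
    exact hv₀ ((Submodule.mem_bot E).1 this)
  have hcommE : ∀ (σ : GQ) (T : TT0 N),
      (M σ).map (algebraMap O E) * (Θ T).map (Int.castRingHom E) =
        (Θ T).map (Int.castRingHom E) * (M σ).map (algebraMap O E) := by
    intro σ T
    have h2 := congrArg (fun A => A.map (algebraMap O E)) (hMcomm σ T)
    simp only [Matrix.map_mul, w30_map_map] at h2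
    exact h2
  have hW : ∀ σ, ∀ v ∈ W, actE M σ v ∈ W := by
    intro σ v hv t
    rw [act_apply, mapM_apply, Matrix.mulVec_mulVec, ← hcommE, ← Matrix.mulVec_mulVec, hv t,
      Matrix.mulVec_smul]
  -- the bad set
  let D : ℕ := N * ∏ q ∈ S.filter Nat.Prime, q
  have hD : D ≠ 0 := mul_ne_zero (NeZero.ne N)
    (Finset.prod_ne_zero_iff.2 fun q hq => (Finset.mem_filter.1 hq).2.ne_zero)
  have hDN : ∀ ℓ : ℕ, ¬ ℓ ∣ D → ¬ ℓ ∣ N := fun ℓ h h' => h (Dvd.dvd.mul_right h' _)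
  have hDS : ∀ ℓ : ℕ, ℓ.Prime → ¬ ℓ ∣ D → ℓ ∉ (↑S : Set ℕ) := by
    intro ℓ hℓ h hS
    apply h
    have h1 := Finset.dvd_prod_of_mem (fun q => q)
      (Finset.mem_filter.2 ⟨Finset.mem_coe.1 hS, hℓ⟩)
    exact Dvd.dvd.mul_left h1 _
  have hDp : ∀ ℓ : ℕ, ℓ.Prime → ¬ ℓ ∣ D → ℓ ≠ p := by
    intro ℓ hℓ h e
    exact hDS ℓ hℓ h (e ▸ Finset.mem_coe.2 hpS)
  let a : ℕ → O := fun ℓ =>
    if h : ℓ.Prime ∧ ¬ ℓ ∣ N ∧ ℓ ∉ (↑S : Set ℕ) then
      χ (CuspForm.heckeAlgebra.T h.1 h.2.1 h.2.2) else 0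
  have ha : ∀ (ℓ : ℕ) (hℓ : ℓ.Prime) (hℓN : ¬ ℓ ∣ N) (hℓS : ℓ ∉ (↑S : Set ℕ)),
      a ℓ = χ (CuspForm.heckeAlgebra.T hℓ hℓN hℓS) := by
    intro ℓ hℓ hℓN hℓS
    simp only [a]
    rw [dif_pos ⟨hℓ, hℓN, hℓS⟩]
  have hquad : ∀ ℓ : ℕ, ℓ.Prime → ¬ ℓ ∣ D → ∀ A : ValuationSubring Qbar, A.LiesOverPrime ℓ →
      ∀ σ : GQ, A.IsFrobeniusAt σ ℓ → ∀ v ∈ W,
        actE M σ (actE M σ v) - algebraMap O (FractionRing O) (a ℓ) • actE M σ v
          + (ℓ : FractionRing O) • v = 0 := by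
    intro ℓ hℓ hℓD A hA σ hσ v hv
    have hℓN := hDN ℓ hℓD
    have hℓS := hDS ℓ hℓ hℓD
    have h1 := hMes ℓ hℓ hℓN (hDp ℓ hℓ hℓD) A hA σ hσ
    have h2 := congrArg (fun A => A.map (algebraMap O E)) h1
    have h3 : ((ℓ : Matrix (Fin r) (Fin r) O)).map (algebraMap O E) =
        (ℓ : Matrix (Fin r) (Fin r) E) := map_natCast (algebraMap O E).mapMatrix ℓ
    simp only [Matrix.map_add _ (map_add (algebraMap O E)),
      Matrix.map_sub _ (map_sub (algebraMap O E)), Matrix.map_mul, w30_map_map, h3] at h2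
    have h4 := congrArg (fun A => A *ᵥ v) h2
    simp only [Matrix.add_mulVec, Matrix.sub_mulVec, ← Matrix.mulVec_mulVec] at h4
    have h5 : ι (CuspForm.heckeAlgebra.T hℓ hℓN hℓS) = CuspForm.heckeAlgebra.T hℓ hℓN hℓN := rfl
    have h6 := hW σ v hv (CuspForm.heckeAlgebra.T hℓ hℓN hℓS)
    rw [h5, act_apply, mapM_apply] at h6
    rw [h6] at h4
    rw [act_apply, act_apply, mapM_apply, ha ℓ hℓ hℓN hℓS]
    have h7 : (ℓ : Matrix (Fin r) (Fin r) E) *ᵥ v = (ℓ : E) • v := by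
      have : (ℓ : Matrix (Fin r) (Fin r) E) = (ℓ : E) • (1 : Matrix (Fin r) (Fin r) E) := by
        rw [← Algebra.algebraMap_eq_smul_one, map_natCast]
      rw [this, Matrix.smul_mulVec, Matrix.one_mulVec]
    have h8 : (Matrix.map (0 : Matrix (Fin r) (Fin r) O) (algebraMap O E)) *ᵥ v = 0 := by
      rw [Matrix.map_zero _ (map_zero _), Matrix.zero_mulVec]
    rw [h7, h8] at h4
    exact h4
  obtain ⟨ρ, hρ1, hρ2⟩ := exists_adicRep_of_quadratic O M hMc ε hεc complexConjugation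
    complexConjugation_mul_self hεconj W hW0 hW D hD a
    (fun ℓ hℓ hℓD A hA σ hσ => hεF ℓ hℓ (hDp ℓ hℓ hℓD) A hA σ hσ) hquad
  have hdvd : ∀ ℓ : ℕ, ℓ.Prime → ¬ ℓ ∣ N → ℓ ∉ (↑S : Set ℕ) → ¬ ℓ ∣ D := by
    intro ℓ hℓ hℓN hℓS h
    rcases (Nat.Prime.dvd_mul hℓ).1 h with h | h
    · exact hℓN h
    · obtain ⟨q, hq, hqd⟩ := (Prime.dvd_finsetProd_iff hℓ.prime _).1 h
      obtain ⟨hqS, hqp⟩ := Finset.mem_filter.1 hq
      rw [(Nat.prime_dvd_prime_iff_eq hℓ hqp).1 hqd] at hℓS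
      exact hℓS (Finset.mem_coe.2 hqS)
  refine ⟨O, inferInstance, inferInstance, inferInstance, inferInstance, inferInstance,
    inferInstance, Algebra.id O, inferInstance, ?_, Function.injective_id, ρ, ?_, ?_⟩
  · exact ⟨fun a h => h⟩
  · intro ℓ hℓ hℓN hℓS A hA σ hσ
    rw [hρ2 ℓ hℓ (hdvd ℓ hℓ hℓN hℓS) A hA σ hσ, ha ℓ hℓ hℓN hℓS]
    rfl
  · intro q hq hqN hqp A hA σ hσ
    apply hρ1
    · apply hMunr q hq _ A hA σ hσ
      intro h
      rcases (Nat.Prime.dvd_mul hq).1 h with h | h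
      · exact hqN h
      · exact hqp ((Nat.prime_dvd_prime_iff_eq hq Fact.out).1 h)
    · exact hεI q hq hqp A hA σ hσ

end Fermat.Agent.S30Lib
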