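import Mathlib
import Fermat.Prelude.Def_GaloisRep_Adic

/-!
# S30 library: basic definitions

Matrix representations of `G_ℚ` over a local ring `O`, entrywise adic continuity, and the induced
actions on `O^r` and on `E^r`, `E = Frac O`.
-/

set_option autoImplicit false

namespace Fermat.Agent.S30Lib

open Matrix

/-- `ℚ̄` -/
abbrev Qbar : Type := AlgebraicClosure ℚ

/-- the absolute Galois group of `ℚ` -/
abbrev GQ : Type := AlgebraicClosure ℚ ≃ₐ[ℚ] AlgebraicClosure ℚ

/-- entrywise adic continuity of a matrix representation -/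
def IsContM {O : Type} [CommRing O] [IsLocalRing O] {r : ℕ}
    (M : GQ →* Matrix (Fin r) (Fin r) O) : Prop :=
  ∀ n : ℕ, ∃ L : IntermediateField ℚ Qbar, FiniteDimensional ℚ L ∧
    ∀ σ : GQ, (∀ x ∈ L, σ x = x) → ∀ i j, (M σ - 1) i j ∈ IsLocalRing.maximalIdeal O ^ n

/-- adic continuity of a character -/
def IsContC {O : Type} [CommRing O] [IsLocalRing O] (ε : GQ →* Oˣ) : Prop :=
  ∀ n : ℕ, ∃ L : IntermediateField ℚ Qbar, FiniteDimensional ℚ L ∧
    ∀ σ : GQ, (∀ x ∈ L, σ x = x) → ((ε σ : Oˣ) : O) - 1 ∈ IsLocalRing.maximalIdeal O ^ n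

/-- the action on `R^r` of a matrix representation -/
noncomputable def act {G R : Type} [Monoid G] [CommRing R] {r : ℕ}
    (M : G →* Matrix (Fin r) (Fin r) R) : G →* Module.End R (Fin r → R) :=
  ((Matrix.toLinAlgEquiv' (R := R) (n := Fin r)) : Matrix (Fin r) (Fin r) R →* _).comp M

@[simp] theorem act_apply {G R : Type} [Monoid G] [CommRing R] {r : ℕ}
    (M : G →* Matrix (Fin r) (Fin r) R) (g : G) (v : Fin r → R) : act M g v = M g *ᵥ v := rfl

/-- change of coefficients of a matrix representation -/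
def mapM {G R R' : Type} [Monoid G] [CommRing R] [CommRing R'] (f : R →+* R') {r : ℕ}
    (M : G →* Matrix (Fin r) (Fin r) R) : G →* Matrix (Fin r) (Fin r) R' :=
  (f.mapMatrix (m := Fin r)).toMonoidHom.comp M

@[simp] theorem mapM_apply {G R R' : Type} [Monoid G] [CommRing R] [CommRing R'] (f : R →+* R')
    {r : ℕ} (M : G →* Matrix (Fin r) (Fin r) R) (g : G) : mapM f M g = (M g).map f := rfl

/-- the action on `E^r`, `E = Frac O` -/
noncomputable abbrev actE {G O : Type} [Monoid G] [CommRing O] {r : ℕ}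
    (M : G →* Matrix (Fin r) (Fin r) O) :
    G →* Module.End (FractionRing O) (Fin r → FractionRing O) :=
  act (mapM (algebraMap O (FractionRing O)) M)

end Fermat.Agent.S30Lib
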