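import Fermat.Agent.S30.Defs
import Fermat.Agent.Lib.Chebotarev.Main
import Fermat.Agent.Lib.QuadRep.Pow

/-!
# S30 library, leaf (DN): the quadratic relation at Frobenius lifts extends to all of `G_ℚ`
-/

set_option autoImplicit false

namespace Fermat.Agent.S30Lib

open Polynomial Matrix

section DN

variable {O : Type} [CommRing O] {r : ℕ}

/-- coefficientwise embedding `O^r → E^r` -/
noncomputable def dn_toE (w : Fin r → O) : Fin r → FractionRing O :=
  fun i => algebraMap O (FractionRing O) (w i)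

/-- `H σ = M σ + ε σ • M σ⁻¹` -/
noncomputable def dn_H (M : GQ →* Matrix (Fin r) (Fin r) O) (ε : GQ →* Oˣ) (σ : GQ) :
    Matrix (Fin r) (Fin r) O :=
  M σ + ((ε σ : Oˣ) : O) • M σ⁻¹

theorem dn_toE_mulVec (A : Matrix (Fin r) (Fin r) O) (w : Fin r → O) :
    dn_toE (A *ᵥ w) = A.map (algebraMap O (FractionRing O)) *ᵥ dn_toE w := by
  funext i
  exact RingHom.map_mulVec (algebraMap O (FractionRing O)) A w i

theorem dn_toE_H (M : GQ →* Matrix (Fin r) (Fin r) O) (ε : GQ →* Oˣ) (σ : GQ) (w : Fin r → O) :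
    dn_toE (dn_H M ε σ *ᵥ w) = actE M σ (dn_toE w) +
      algebraMap O (FractionRing O) ((ε σ : Oˣ) : O) • actE M σ⁻¹ (dn_toE w) := by
  rw [dn_H, add_mulVec, smul_mulVec, act_apply, act_apply, mapM_apply, mapM_apply,
    ← dn_toE_mulVec, ← dn_toE_mulVec]
  funext i
  simp [dn_toE, Algebra.smul_def]

/-- the operator `v ↦ σ v + ε σ • σ⁻¹ v` on `E^r` -/
noncomputable def dn_T (M : GQ →* Matrix (Fin r) (Fin r) O) (ε : GQ →* Oˣ) (σ : GQ) :
    Module.End (FractionRing O) (Fin r → FractionRing O) :=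
  actE M σ + algebraMap O (FractionRing O) ((ε σ : Oˣ) : O) • actE M σ⁻¹

theorem dn_T_apply (M : GQ →* Matrix (Fin r) (Fin r) O) (ε : GQ →* Oˣ) (σ : GQ)
    (v : Fin r → FractionRing O) :
    dn_T M ε σ v = actE M σ v +
      algebraMap O (FractionRing O) ((ε σ : Oˣ) : O) • actE M σ⁻¹ v := rfl

/-- the action on a stable subspace -/
noncomputable def dn_pi (M : GQ →* Matrix (Fin r) (Fin r) O)
    (W : Submodule (FractionRing O) (Fin r → FractionRing O))
    (hW : ∀ σ, ∀ v ∈ W, actE M σ v ∈ W) : GQ →* Module.End (FractionRing O) W where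
  toFun σ := (actE M σ).restrict (hW σ)
  map_one' := by
    ext v
    simp
  map_mul' σ τ := by
    ext v
    simp [map_mul]

theorem dn_pi_apply (M : GQ →* Matrix (Fin r) (Fin r) O)
    (W : Submodule (FractionRing O) (Fin r → FractionRing O))
    (hW : ∀ σ, ∀ v ∈ W, actE M σ v ∈ W) (σ : GQ) (v : W) :
    ((dn_pi M W hW σ v : W) : Fin r → FractionRing O) = actE M σ v := rfl

/-- at a power of an element satisfying a quadratic relation, `T` is a scalar on `W`. -/
theorem dn_scalar_pow (M : GQ →* Matrix (Fin r) (Fin r) O) (ε : GQ →* Oˣ)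
    (W : Submodule (FractionRing O) (Fin r → FractionRing O))
    (hW : ∀ σ, ∀ v ∈ W, actE M σ v ∈ W) (τ : GQ) (a d : O) (hd : ((ε τ : Oˣ) : O) = d)
    (hq : ∀ v ∈ W, actE M τ (actE M τ v) - algebraMap O (FractionRing O) a • actE M τ v
      + algebraMap O (FractionRing O) d • v = 0) (k : ℕ) :
    ∃ a' : FractionRing O, ∀ v ∈ W, dn_T M ε (τ ^ k) v = a' • v := by
  have h0 : dn_pi M W hW τ * dn_pi M W hW τ - algebraMap O (FractionRing O) a • dn_pi M W hW τ
      + algebraMap O (FractionRing O) d • (1 : Module.End (FractionRing O) W) = 0 := by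
    ext v
    exact congrFun (hq v v.2) _
  obtain ⟨a', ha'⟩ := Fermat.Agent.QRLib.quadratic_pow (R := FractionRing O)
    (A := Module.End (FractionRing O) W) _ _ _ h0 k
  refine ⟨a', fun v hv => ?_⟩
  rw [← map_pow] at ha'
  have h1 := congrArg (fun f : Module.End (FractionRing O) W =>
    ((f (dn_pi M W hW (τ ^ k)⁻¹ ⟨v, hv⟩) : W) : Fin r → FractionRing O)) ha'
  have h2 : dn_pi M W hW (τ ^ k) (dn_pi M W hW (τ ^ k)⁻¹ ⟨v, hv⟩) = ⟨v, hv⟩ := by
    rw [← Module.End.mul_apply, ← map_mul, mul_inv_cancel, map_one, Module.End.one_apply]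
  simp only [LinearMap.add_apply, LinearMap.sub_apply, Module.End.mul_apply, LinearMap.smul_apply,
    Module.End.one_apply, h2, LinearMap.zero_apply, Submodule.coe_add, Submodule.coe_sub,
    Submodule.coe_smul, Submodule.coe_zero, dn_pi_apply] at h1
  have hεk : algebraMap O (FractionRing O) ((ε (τ ^ k) : Oˣ) : O) =
      algebraMap O (FractionRing O) d ^ k := by
    rw [map_pow, Units.val_pow_eq_pow_val, hd, map_pow]
  rw [dn_T_apply, hεk]
  have h3 : actE M (τ ^ k) v + algebraMap O (FractionRing O) d ^ k • actE M (τ ^ k)⁻¹ v - a' • v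
      = 0 := by
    rw [← h1]; abel
  exact sub_eq_zero.mp h3

end DN

section DN2

variable {O : Type} [CommRing O] [IsDomain O] [IsDiscreteValuationRing O] {r : ℕ}

/-- approximation of `H g` by `H (τ ^ k)`, `τ` a Frobenius lift -/
theorem dn_approx (M : GQ →* Matrix (Fin r) (Fin r) O) (hM : IsContM M)
    (ε : GQ →* Oˣ) (hε : IsContC ε) (D : ℕ) (hD : D ≠ 0) (g : GQ) (n : ℕ) :
    ∃ (ℓ : ℕ) (A : ValuationSubring Qbar) (τ : GQ) (k : ℕ), ℓ.Prime ∧ ¬ ℓ ∣ D ∧
      A.LiesOverPrime ℓ ∧ A.IsFrobeniusAt τ ℓ ∧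
      (dn_H M ε g).map (Ideal.Quotient.mk (IsLocalRing.maximalIdeal O ^ n)) =
        (dn_H M ε (τ ^ k)).map (Ideal.Quotient.mk (IsLocalRing.maximalIdeal O ^ n)) := by
  set q := Ideal.Quotient.mk (IsLocalRing.maximalIdeal O ^ n) with hq
  obtain ⟨LM, hLM, hM1⟩ := hM n
  obtain ⟨Lε, hLε, hε1⟩ := hε n
  let φ : GQ →* Matrix (Fin r) (Fin r) (O ⧸ IsLocalRing.maximalIdeal O ^ n) ×
      (O ⧸ IsLocalRing.maximalIdeal O ^ n) :=
    (mapM q M).prod ((q : O →* _).comp ((Units.coeHom O).comp ε))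
  set U : Subgroup GQ := φ.ker with hUdef
  have hUmem : ∀ σ : GQ, σ ∈ U ↔ (M σ).map q = 1 ∧ q ((ε σ : Oˣ) : O) = 1 := by
    intro σ
    rw [hUdef, MonoidHom.mem_ker, MonoidHom.prod_apply, Prod.mk_eq_one]
    rfl
  have hUn : U.Normal := MonoidHom.normal_ker _
  have hLfin : FiniteDimensional ℚ (LM ⊔ Lε : IntermediateField ℚ Qbar) :=
    IntermediateField.finiteDimensional_sup LM Lε
  have hUo : IsOpen (U : Set GQ) := by
    refine Subgroup.isOpen_mono (H₁ := (LM ⊔ Lε : IntermediateField ℚ Qbar).fixingSubgroup) ?_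
      (IntermediateField.fixingSubgroup_isOpen _)
    intro σ hσ
    have hσ' := (IntermediateField.mem_fixingSubgroup_iff _ σ).1 hσ
    rw [hUmem]
    constructor
    · ext i j
      have h1 := hM1 σ (fun x hx => hσ' x ((le_sup_left : LM ≤ LM ⊔ Lε) hx)) i j
      have h2 : q ((M σ - 1) i j) = 0 := Ideal.Quotient.eq_zero_iff_mem.mpr h1
      rw [Matrix.sub_apply, map_sub, sub_eq_zero] at h2
      rw [Matrix.map_apply, h2]
      by_cases hij : i = j
      · subst hij; simp
      · simp [hij]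
    · have h1 := hε1 σ (fun x hx => hσ' x ((le_sup_right : Lε ≤ LM ⊔ Lε) hx))
      have h2 : q (((ε σ : Oˣ) : O) - 1) = 0 := Ideal.Quotient.eq_zero_iff_mem.mpr h1
      rw [map_sub, sub_eq_zero, map_one] at h2
      exact h2
  obtain ⟨ℓ, A, τ, k, -, hℓ, hℓS, hA, hτ, hg, -⟩ :=
    Fermat.Agent.ChebLib.weak_chebotarev U hUo hUn g D.primeFactors
  have hℓD : ¬ ℓ ∣ D := fun h => hℓS (Nat.mem_primeFactors.2 ⟨hℓ, h, hD⟩)
  refine ⟨ℓ, A, τ, k, hℓ, hℓD, hA, hτ, ?_⟩
  obtain ⟨h1, h2⟩ := (hUmem _).1 hg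
  obtain ⟨h3, -⟩ := (hUmem _).1 (U.inv_mem hg)
  have e1 : (M (τ ^ k)).map q = (M g).map q := by
    have : M (τ ^ k) = M g * M (g⁻¹ * τ ^ k) := by rw [← map_mul, mul_inv_cancel_left]
    rw [this, Matrix.map_mul, h1, mul_one]
  have e2 : q ((ε (τ ^ k) : Oˣ) : O) = q ((ε g : Oˣ) : O) := by
    have : ε (τ ^ k) = ε g * ε (g⁻¹ * τ ^ k) := by rw [← map_mul, mul_inv_cancel_left]
    rw [this, Units.val_mul, map_mul, h2, mul_one]
  have e3 : (M (τ ^ k)⁻¹).map q = (M g⁻¹).map q := by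
    have : M (τ ^ k)⁻¹ = M (g⁻¹ * τ ^ k)⁻¹ * M g⁻¹ := by
      rw [← map_mul]; congr 1; group
    rw [this, Matrix.map_mul, h3, one_mul]
  ext i j
  simp only [dn_H, Matrix.map_apply, Matrix.add_apply, Matrix.smul_apply, smul_eq_mul, map_add,
    map_mul]
  have e1' := congrFun (congrFun e1 i) j
  have e3' := congrFun (congrFun e3 i) j
  simp only [Matrix.map_apply] at e1' e3'
  rw [e1', e2, e3']

theorem exists_quadratic_all (O : Type) [CommRing O] [IsDomain O] [IsDiscreteValuationRing O]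
    {r : ℕ} (M : GQ →* Matrix (Fin r) (Fin r) O) (hM : IsContM M)
    (ε : GQ →* Oˣ) (hε : IsContC ε)
    (W : Submodule (FractionRing O) (Fin r → FractionRing O))
    (hW : ∀ σ, ∀ v ∈ W, actE M σ v ∈ W)
    (D : ℕ) (hD : D ≠ 0) (a : ℕ → O)
    (hεF : ∀ ℓ : ℕ, ℓ.Prime → ¬ ℓ ∣ D → ∀ A : ValuationSubring Qbar, A.LiesOverPrime ℓ →
      ∀ σ : GQ, A.IsFrobeniusAt σ ℓ → ((ε σ : Oˣ) : O) = (ℓ : O))
    (hquad : ∀ ℓ : ℕ, ℓ.Prime → ¬ ℓ ∣ D → ∀ A : ValuationSubring Qbar, A.LiesOverPrime ℓ →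
      ∀ σ : GQ, A.IsFrobeniusAt σ ℓ → ∀ v ∈ W,
        actE M σ (actE M σ v) - algebraMap O (FractionRing O) (a ℓ) • actE M σ v
          + (ℓ : FractionRing O) • v = 0) (g : GQ) :
    ∃ t : FractionRing O, ∀ v ∈ W,
      actE M g (actE M g v) - t • actE M g v
        + algebraMap O (FractionRing O) ((ε g : Oˣ) : O) • v = 0 := by
  classical
  have hinj : Function.Injective (algebraMap O (FractionRing O)) :=
    IsFractionRing.injective O (FractionRing O)
  -- the cross identity for integral vectors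
  have hcross : ∀ w : Fin r → O, dn_toE w ∈ W → ∀ i j,
      (dn_H M ε g *ᵥ w) i * w j = (dn_H M ε g *ᵥ w) j * w i := by
    intro w hw i j
    rw [← sub_eq_zero]
    have hmem : ∀ n : ℕ, (dn_H M ε g *ᵥ w) i * w j - (dn_H M ε g *ᵥ w) j * w i ∈
        IsLocalRing.maximalIdeal O ^ n := by
      intro n
      obtain ⟨ℓ, A, τ, k, hℓ, hℓD, hA, hτ, hH⟩ := dn_approx M hM ε hε D hD g n
      obtain ⟨a', ha'⟩ := dn_scalar_pow M ε W hW τ (a ℓ) (ℓ : O) (hεF ℓ hℓ hℓD A hA τ hτ)
        (fun v hv => by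
          have := hquad ℓ hℓ hℓD A hA τ hτ v hv
          rwa [← map_natCast (algebraMap O (FractionRing O))] at this) k
      have h1 : dn_toE (dn_H M ε (τ ^ k) *ᵥ w) = a' • dn_toE w := by
        rw [dn_toE_H, ← dn_T_apply, ha' _ hw]
      have h2 : (dn_H M ε (τ ^ k) *ᵥ w) i * w j = (dn_H M ε (τ ^ k) *ᵥ w) j * w i := by
        apply hinj
        have hi := congrFun h1 i
        have hj := congrFun h1 j
        simp only [dn_toE, Pi.smul_apply, smul_eq_mul] at hi hj
        rw [map_mul, map_mul, hi, hj]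
        ring
      rw [← Ideal.Quotient.eq_zero_iff_mem, map_sub, map_mul, map_mul, RingHom.map_mulVec,
        RingHom.map_mulVec, hH, ← RingHom.map_mulVec, ← RingHom.map_mulVec, ← map_mul, ← map_mul,
        h2, sub_self]
    have hbot := Ideal.iInf_pow_eq_bot_of_isLocalRing (IsLocalRing.maximalIdeal O)
      Ideal.IsPrime.ne_top'
    have : (dn_H M ε g *ᵥ w) i * w j - (dn_H M ε g *ᵥ w) j * w i ∈
        (⨅ n : ℕ, IsLocalRing.maximalIdeal O ^ n) := by
      rw [Ideal.mem_iInf]; exact hmem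
    rwa [hbot, Ideal.mem_bot] at this
  -- the cross identity on `W`
  have hcrossE : ∀ v ∈ W, ∀ i j, (dn_T M ε g v) i * v j = (dn_T M ε g v) j * v i := by
    intro v hv i j
    obtain ⟨b, hb⟩ := IsLocalization.exist_integer_multiples_of_finite (nonZeroDivisors O) v
    choose w hw using hb
    have hb0 : algebraMap O (FractionRing O) (b : O) ≠ 0 := by
      intro h
      exact nonZeroDivisors.ne_zero b.2 (hinj (by rw [h, map_zero]))
    have hwv : dn_toE w = algebraMap O (FractionRing O) (b : O) • v := by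
      funext i
      rw [dn_toE, hw i, Pi.smul_apply, Algebra.smul_def, smul_eq_mul]
    have hwW : dn_toE w ∈ W := by rw [hwv]; exact W.smul_mem _ hv
    have h1 := congrArg (algebraMap O (FractionRing O)) (hcross w hwW i j)
    have h2 : dn_toE (dn_H M ε g *ᵥ w) = algebraMap O (FractionRing O) (b : O) • dn_T M ε g v := by
      rw [dn_toE_H, ← dn_T_apply, hwv, map_smul]
    have hi := congrFun h2 i
    have hj := congrFun h2 j
    have wi := congrFun hwv i
    have wj := congrFun hwv j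
    simp only [dn_toE, Pi.smul_apply, smul_eq_mul] at hi hj wi wj
    rw [map_mul, map_mul, hi, hj, wi, wj] at h1
    have h3 : algebraMap O (FractionRing O) (b : O) ^ 2 *
        ((dn_T M ε g v) i * v j - (dn_T M ε g v) j * v i) = 0 := by
      linear_combination h1
    rcases mul_eq_zero.mp h3 with h | h
    · exact absurd (pow_eq_zero_iff (two_ne_zero)|>.mp h) hb0
    · exact sub_eq_zero.mp h
  -- `T` preserves `W`
  have hTW : ∀ v ∈ W, dn_T M ε g v ∈ W := fun v hv =>
    W.add_mem (hW g v hv) (W.smul_mem _ (hW g⁻¹ v hv))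
  obtain ⟨t, ht⟩ := LinearMap.exists_eq_smul_id_of_forall_notLinearIndependent
    (f := (dn_T M ε g).restrict hTW) (by
      intro v hli
      have hv0 : v ≠ 0 := by
        have := hli.ne_zero 0
        simpa using this
      have hv0' : (v : Fin r → FractionRing O) ≠ 0 := fun h => hv0 (Subtype.ext h)
      obtain ⟨j, hj⟩ := Function.ne_iff.mp hv0'
      have hj' : (v : Fin r → FractionRing O) j ≠ 0 := hj
      have h1 := (LinearIndependent.pair_iff.mp hli)
        ((dn_T M ε g v) j / (v : Fin r → FractionRing O) j) (-1) (by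
          apply Subtype.ext
          funext i
          have h2 := hcrossE v v.2 i j
          simp only [Submodule.coe_add, Submodule.coe_smul, LinearMap.coe_restrict_apply,
            Pi.add_apply, Pi.smul_apply, smul_eq_mul, Submodule.coe_zero, Pi.zero_apply]
          field_simp
          linear_combination -h2)
      exact absurd h1.2 (by norm_num))
  refine ⟨t, fun v hv => ?_⟩
  have h1 := congrArg (fun f : Module.End (FractionRing O) W =>
    ((f ⟨actE M g v, hW g v hv⟩ : W) : Fin r → FractionRing O)) ht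
  simp only [LinearMap.coe_restrict_apply, LinearMap.smul_apply, Module.End.one_apply,
    Submodule.coe_smul] at h1
  rw [dn_T_apply] at h1
  have h2 : actE M g⁻¹ (actE M g v) = v := by
    rw [← Module.End.mul_apply, ← map_mul, inv_mul_cancel, map_one, Module.End.one_apply]
  rw [h2] at h1
  rw [← h1]
  abel

end DN2

end Fermat.Agent.S30Lib
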