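import Fermat.Agent.S30.Defs

set_option autoImplicit false
set_option linter.style.haveILetI false

namespace Fermat.Agent.S30Lib

open Polynomial Matrix

theorem d1_charpoly_scalar {O : Type} [CommRing O] [Nontrivial O] (c : O) :
    LinearMap.charpoly (c • (1 : Module.End O O)) = X - C c := by
  have h := LinearMap.charpoly_sub_smul (0 : Module.End O O) (-c)
  rw [show (0 : Module.End O O) - (-c) • 1 = c • 1 by ext; simp] at h
  rw [h]
  have h0 : LinearMap.charpoly (0 : Module.End O O) = X ^ Module.finrank O O :=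
    LinearMap.charpoly_zero
  rw [h0]
  simp [sub_eq_add_neg]

theorem exists_rep_of_rank_one (O : Type) [CommRing O] [IsDomain O] [IsLocalRing O]
    {Y : Type} [AddCommGroup Y] [Module O Y] [Module.Free O Y] [Module.Finite O Y]
    (h1 : Module.finrank O Y = 1) (π : GQ →* Module.End O Y)
    (hπ : GaloisActionIsAdicContinuous O π) (ε : GQ →* Oˣ) (hε : IsContC ε) :
    ∃ ρ : GaloisRepAdic O, (∀ σ, π σ = 1 → ε σ = 1 → ρ.ρ σ = 1) ∧
      ∀ σ (a : O), π σ * π σ - a • π σ + ((ε σ : Oˣ) : O) • (1 : Module.End O Y) = 0 →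
        LinearMap.charpoly (ρ.ρ σ) = X ^ 2 - C a * X + C ((ε σ : Oˣ) : O) := by
  let b : Module.Basis (Fin 1) O Y := Module.finBasisOfFinrankEq O Y h1
  set w₀ : Y := b 0 with hw₀
  have hsp : ∀ y : Y, y = b.repr y 0 • w₀ := by
    intro y
    conv_lhs => rw [← b.sum_repr y]
    simp [hw₀]
  have hinj : ∀ a c : O, a • w₀ = c • w₀ → a = c := by
    intro a c h
    have := congrArg (fun y => b.repr y 0) h
    simpa [hw₀] using this
  let c : GQ → O := fun g => b.repr (π g w₀) 0
  have hc : ∀ g, c g • w₀ = π g w₀ := fun g => (hsp _).symm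
  let χ₀ : GQ →* O :=
    { toFun := c
      map_one' := by
        apply hinj
        rw [hc, map_one, one_smul, Module.End.one_apply]
      map_mul' := fun g h => by
        apply hinj
        rw [hc, map_mul, Module.End.mul_apply, ← hc h, map_smul, ← hc g, smul_smul, mul_comm] }
  let χ : GQ →* Oˣ := χ₀.toHomUnits
  have hχ : ∀ g, ((χ g : Oˣ) : O) = c g := fun g => rfl
  let χ' : GQ →* Oˣ := ε * χ⁻¹
  have hχ' : ∀ g, ((χ g : Oˣ) : O) * ((χ' g : Oˣ) : O) = ε g := by
    intro g
    rw [← Units.val_mul]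
    simp [χ']
  let sc : O →* Module.End O O := (algebraMap O (Module.End O O)).toMonoidHom
  let π' : GQ →* Module.End O (O × O) :=
    (LinearMap.prodMapRingHom O O O).toMonoidHom.comp
      (MonoidHom.prod (sc.comp ((Units.coeHom O).comp χ)) (sc.comp ((Units.coeHom O).comp χ')))
  have hπ' : ∀ g, π' g = LinearMap.prodMap (((χ g : Oˣ) : O) • (1 : Module.End O O))
      (((χ' g : Oˣ) : O) • (1 : Module.End O O)) := by
    intro g
    simp only [π', sc, MonoidHom.comp_apply, MonoidHom.prod_apply]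
    simp [Algebra.algebraMap_eq_smul_one]
  have hcont : GaloisActionIsAdicContinuous O π' := by
    intro n
    obtain ⟨L₁, hL₁, h₁⟩ := hπ n
    obtain ⟨L₂, hL₂, h₂⟩ := hε n
    refine ⟨L₁ ⊔ L₂, IntermediateField.finiteDimensional_sup L₁ L₂, fun σ hσ v => ?_⟩
    have hσ₁ : ∀ x ∈ L₁, σ x = x := fun x hx => hσ x ((le_sup_left : L₁ ≤ L₁ ⊔ L₂) hx)
    have hσ₂ : ∀ x ∈ L₂, σ x = x := fun x hx => hσ x ((le_sup_right : L₂ ≤ L₁ ⊔ L₂) hx)
    have e1 : ((χ σ : Oˣ) : O) - 1 ∈ IsLocalRing.maximalIdeal O ^ n := by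
      have h3 := h₁ σ hσ₁ w₀
      have h4 : ∀ y ∈ (IsLocalRing.maximalIdeal O ^ n) • (⊤ : Submodule O Y),
          b.repr y 0 ∈ IsLocalRing.maximalIdeal O ^ n := by
        intro y hy
        refine Submodule.smul_induction_on
          (p := fun y => b.repr y 0 ∈ IsLocalRing.maximalIdeal O ^ n) hy ?_ ?_
        · intro a ha w _
          simpa using Ideal.mul_mem_right _ _ ha
        · intro x y hx hy
          simpa using Ideal.add_mem _ hx hy
      have h5 := h4 _ h3
      rw [← hc σ] at h5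
      simpa [hw₀, hχ] using h5
    have e2 : ((χ' σ : Oˣ) : O) - 1 ∈ IsLocalRing.maximalIdeal O ^ n := by
      have h3 := h₂ σ hσ₂
      have h4 : ((χ' σ : Oˣ) : O) - 1 =
          (((χ σ)⁻¹ : Oˣ) : O) * ((((ε σ : Oˣ) : O) - 1) - (((χ σ : Oˣ) : O) - 1)) := by
        have h5 : ((χ' σ : Oˣ) : O) = ((ε σ : Oˣ) : O) * (((χ σ)⁻¹ : Oˣ) : O) := by
          simp [χ']
        have h6 : (((χ σ)⁻¹ : Oˣ) : O) * ((χ σ : Oˣ) : O) = 1 := by simp
        rw [h5]
        linear_combination (1 : O) * h6
      rw [h4]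
      exact Ideal.mul_mem_left _ _ (Ideal.sub_mem _ h3 e1)
    have h7 : π' σ v - v = (((χ σ : Oˣ) : O) - 1) • ((v.1, 0) : O × O) +
        (((χ' σ : Oˣ) : O) - 1) • ((0, v.2) : O × O) := by
      rw [hπ']
      ext
      · simp [sub_mul]
      · simp [sub_mul]
    rw [h7]
    exact Submodule.add_mem _ (Submodule.smul_mem_smul e1 Submodule.mem_top)
      (Submodule.smul_mem_smul e2 Submodule.mem_top)
  refine ⟨{ V := O × O, finrank_eq := by simp, ρ := π', isAdicContinuous := hcont },
    fun g hg hd => ?_, fun g a hq => ?_⟩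
  · have h1 : χ g = 1 := by
      apply Units.ext
      rw [hχ, Units.val_one]
      apply hinj
      rw [hc, hg, one_smul, Module.End.one_apply]
    have h2 : χ' g = 1 := by simp [χ', h1, hd]
    change π' g = 1
    rw [hπ', h1, h2]
    simp
  · have hsum : ((χ g : Oˣ) : O) + ((χ' g : Oˣ) : O) = a := by
      have h1 := LinearMap.congr_fun hq w₀
      simp only [LinearMap.add_apply, LinearMap.sub_apply, Module.End.mul_apply,
        LinearMap.smul_apply, Module.End.one_apply, LinearMap.zero_apply] at h1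
      rw [← hc g, map_smul, ← hc g, smul_smul, smul_smul, ← sub_smul, ← add_smul] at h1
      have h2 : c g * c g - a * c g + ε g = 0 := by
        apply hinj
        rw [h1, zero_smul]
      have h3 : ((χ g : Oˣ) : O) ≠ 0 := (χ g).ne_zero
      apply mul_left_cancel₀ h3
      rw [mul_add, hχ', hχ]
      linear_combination h2
    change LinearMap.charpoly (π' g) = _
    rw [hπ', LinearMap.charpoly_prodMap, d1_charpoly_scalar, d1_charpoly_scalar, ← hsum, ← hχ']
    simp only [map_add, map_mul]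
    ring

end Fermat.Agent.S30Lib
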