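import Fermat.Agent.S30.Defs

/-!
# S30 library, leaf (LT): the lattice of a stable subspace

For a matrix representation `M` of `G_ℚ` over a discrete valuation ring `O` and a stable subspace
`U` of `E^r`, `E = Frac O`, the lattice `Y = U ∩ O^r` is a free `O`-module of rank `dim U` with a
continuous action with the same characteristic polynomials.
-/

set_option autoImplicit false

namespace Fermat.Agent.S30Lib

open Polynomial Matrix

section lt

variable {O : Type} [CommRing O] {r : ℕ}

/-- the inclusion `O^r → E^r` -/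
noncomputable def lt_iota (O : Type) [CommRing O] (r : ℕ) :
    (Fin r → O) →ₗ[O] (Fin r → FractionRing O) :=
  (Algebra.linearMap O (FractionRing O)).compLeft (Fin r)

theorem lt_iota_apply (w : Fin r → O) (i : Fin r) :
    lt_iota O r w i = algebraMap O (FractionRing O) (w i) := rfl

theorem lt_iota_injective [IsDomain O] : Function.Injective (lt_iota O r) := by
  intro a b h
  funext i
  exact IsFractionRing.injective O (FractionRing O) (congrFun h i)

theorem lt_iota_mulVec (A : Matrix (Fin r) (Fin r) O) (w : Fin r → O) :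
    lt_iota O r (A *ᵥ w) = A.map (algebraMap O (FractionRing O)) *ᵥ lt_iota O r w := by
  funext i
  rw [lt_iota_apply]
  simp only [Matrix.mulVec, dotProduct, map_sum, map_mul, Matrix.map_apply, lt_iota_apply]

/-- the lattice `U ∩ O^r` -/
noncomputable def lt_Y (U : Submodule (FractionRing O) (Fin r → FractionRing O)) :
    Submodule O (Fin r → O) :=
  (U.restrictScalars O).comap (lt_iota O r)

theorem lt_mem_Y {U : Submodule (FractionRing O) (Fin r → FractionRing O)} {w : Fin r → O} :
    w ∈ lt_Y U ↔ lt_iota O r w ∈ U := Iff.rfl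

/-- the map `Y → U` -/
noncomputable def lt_f (U : Submodule (FractionRing O) (Fin r → FractionRing O)) :
    lt_Y U →ₗ[O] U where
  toFun w := ⟨lt_iota O r w.1, w.2⟩
  map_add' a b := by
    apply Subtype.ext
    simp
  map_smul' c a := by
    apply Subtype.ext
    simp

theorem lt_f_coe (U : Submodule (FractionRing O) (Fin r → FractionRing O)) (w : lt_Y U) :
    ((lt_f U w : U) : Fin r → FractionRing O) = lt_iota O r w.1 := rfl

theorem lt_clear [IsDomain O] (v : Fin r → FractionRing O) :
    ∃ (c : nonZeroDivisors O) (w : Fin r → O), (c : O) • v = lt_iota O r w := by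
  classical
  obtain ⟨c, hc⟩ := IsLocalization.exist_integer_multiples_of_finset (nonZeroDivisors O)
    (Finset.univ.image v)
  have h : ∀ i, ∃ x : O, algebraMap O (FractionRing O) x = (c : O) • v i := fun i =>
    hc (v i) (Finset.mem_image_of_mem _ (Finset.mem_univ i))
  choose w hw using h
  refine ⟨c, w, ?_⟩
  funext i
  rw [lt_iota_apply, hw, Pi.smul_apply]

instance lt_isLocalizedModule [IsDomain O]
    (U : Submodule (FractionRing O) (Fin r → FractionRing O)) :
    IsLocalizedModule (nonZeroDivisors O) (lt_f U) where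
  map_units x := by
    have hx : algebraMap O (FractionRing O) (x : O) ≠ 0 := by
      intro h
      exact nonZeroDivisors.ne_zero x.2 ((IsFractionRing.injective O (FractionRing O))
        (h.trans (map_zero _).symm))
    rw [Module.End.isUnit_iff]
    constructor
    · intro a b h
      have h' : (x : O) • a = (x : O) • b := h
      rw [← IsScalarTower.algebraMap_smul (FractionRing O) (x : O) a,
        ← IsScalarTower.algebraMap_smul (FractionRing O) (x : O) b] at h'
      exact smul_right_injective _ hx h'
    · intro b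
      refine ⟨(algebraMap O (FractionRing O) (x : O))⁻¹ • b, ?_⟩
      change (x : O) • ((algebraMap O (FractionRing O) (x : O))⁻¹ • b) = b
      rw [← IsScalarTower.algebraMap_smul (FractionRing O) (x : O), smul_smul,
        mul_inv_cancel₀ hx, one_smul]
  surj y := by
    obtain ⟨c, w, hw⟩ := lt_clear (y : Fin r → FractionRing O)
    have hwY : w ∈ lt_Y U := by
      rw [lt_mem_Y, ← hw, ← IsScalarTower.algebraMap_smul (FractionRing O) (c : O)]
      exact U.smul_mem _ y.2
    refine ⟨(⟨w, hwY⟩, c), ?_⟩
    apply Subtype.ext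
    exact hw
  exists_of_eq {a b} h := by
    refine ⟨1, ?_⟩
    have h1 : lt_iota O r a.1 = lt_iota O r b.1 := congrArg Subtype.val h
    rw [Subtype.ext (lt_iota_injective h1)]

end lt

theorem exists_lattice (O : Type) [CommRing O] [IsDomain O] [IsDiscreteValuationRing O]
    {r : ℕ} (M : GQ →* Matrix (Fin r) (Fin r) O) (hM : IsContM M)
    (U : Submodule (FractionRing O) (Fin r → FractionRing O))
    (hU : ∀ σ, ∀ v ∈ U, actE M σ v ∈ U) :
    ∃ (Y : Type) (_ : AddCommGroup Y) (_ : Module O Y) (_ : Module.Free O Y)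
      (_ : Module.Finite O Y) (π : GQ →* Module.End O Y),
      Module.finrank O Y = Module.finrank (FractionRing O) U ∧
      GaloisActionIsAdicContinuous O π ∧
      (∀ σ, M σ = 1 → π σ = 1) ∧
      (∀ σ, (LinearMap.charpoly (π σ)).map (algebraMap O (FractionRing O)) =
        LinearMap.charpoly ((actE M σ).restrict (hU σ))) ∧
      (∀ σ (a b : O), (∀ v ∈ U, actE M σ (actE M σ v)
          - algebraMap O (FractionRing O) a • actE M σ v
          + algebraMap O (FractionRing O) b • v = 0) →
        π σ * π σ - a • π σ + b • (1 : Module.End O Y) = 0) := by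
  classical
  have hst : ∀ σ, ∀ w ∈ lt_Y U, act M σ w ∈ lt_Y U := by
    intro σ w hw
    rw [lt_mem_Y, act_apply, lt_iota_mulVec]
    exact hU σ _ hw
  let π : GQ →* Module.End O (lt_Y U) :=
    { toFun := fun σ => (act M σ).restrict (hst σ)
      map_one' := by
        ext w : 2
        simp
      map_mul' := fun σ τ => by
        ext w : 2
        simp [map_mul] }
  have hπ : ∀ σ (w : lt_Y U), ((π σ w : lt_Y U) : Fin r → O) = M σ *ᵥ w.1 := fun σ w => rfl
  have hfπ : ∀ σ (w : lt_Y U), lt_f U (π σ w) = (actE M σ).restrict (hU σ) (lt_f U w) := by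
    intro σ w
    apply Subtype.ext
    rw [lt_f_coe, hπ, lt_iota_mulVec]
    rfl
  have : Module.Finite O (lt_Y U) := inferInstance
  have : Module.Free O (lt_Y U) := inferInstance
  let b := Module.Free.chooseBasis O (lt_Y U)
  let b' := b.ofIsLocalizedModule (FractionRing O) (nonZeroDivisors O) (lt_f U)
  refine ⟨lt_Y U, inferInstance, inferInstance, inferInstance, inferInstance, π, ?_, ?_, ?_, ?_, ?_⟩
  · rw [Module.finrank_eq_card_basis b, Module.finrank_eq_card_basis b']
  · intro n
    obtain ⟨L, hL, h⟩ := hM n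
    refine ⟨L, hL, fun σ hσ w => ?_⟩
    obtain ⟨ϖ, hϖ⟩ := IsDiscreteValuationRing.exists_irreducible O
    have hm : IsLocalRing.maximalIdeal O ^ n = Ideal.span {ϖ ^ n} := by
      rw [hϖ.maximalIdeal_eq, Ideal.span_singleton_pow]
    have h1 : ∀ i j, ∃ c : O, (M σ - 1) i j = ϖ ^ n * c := by
      intro i j
      have := h σ hσ i j
      rw [hm, Ideal.mem_span_singleton] at this
      exact this
    choose C hC using h1
    have hMC : M σ - 1 = ϖ ^ n • Matrix.of C := by
      ext i j
      rw [hC, Matrix.smul_apply, Matrix.of_apply, smul_eq_mul]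
    have h2 : M σ *ᵥ w.1 - w.1 = ϖ ^ n • (Matrix.of C *ᵥ w.1) := by
      rw [← Matrix.smul_mulVec, ← hMC, Matrix.sub_mulVec, Matrix.one_mulVec]
    have hϖ0 : algebraMap O (FractionRing O) (ϖ ^ n) ≠ 0 := by
      intro h0
      exact pow_ne_zero n hϖ.ne_zero ((IsFractionRing.injective O (FractionRing O))
        (h0.trans (map_zero _).symm))
    have h3 : Matrix.of C *ᵥ w.1 ∈ lt_Y U := by
      rw [lt_mem_Y]
      have h4 : lt_iota O r (Matrix.of C *ᵥ w.1) =
          (algebraMap O (FractionRing O) (ϖ ^ n))⁻¹ • lt_iota O r (M σ *ᵥ w.1 - w.1) := by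
        rw [h2, map_smul, ← IsScalarTower.algebraMap_smul (FractionRing O) (ϖ ^ n), smul_smul,
          inv_mul_cancel₀ hϖ0, one_smul]
      rw [h4]
      refine U.smul_mem _ ?_
      rw [map_sub]
      exact U.sub_mem (hst σ w.1 w.2) w.2
    have h5 : π σ w - w = ϖ ^ n • (⟨Matrix.of C *ᵥ w.1, h3⟩ : lt_Y U) := by
      apply Subtype.ext
      exact h2
    rw [h5]
    refine Submodule.smul_mem_smul ?_ Submodule.mem_top
    rw [hm]
    exact Ideal.mem_span_singleton_self _
  · intro σ hσ
    ext w : 2
    rw [hπ, hσ, Matrix.one_mulVec]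
    rfl
  · intro σ
    rw [← LinearMap.charpoly_toMatrix (π σ) b,
      ← LinearMap.charpoly_toMatrix ((actE M σ).restrict (hU σ)) b', ← Matrix.charpoly_map]
    congr 1
    ext i j
    rw [Matrix.map_apply, LinearMap.toMatrix_apply, LinearMap.toMatrix_apply,
      Module.Basis.ofIsLocalizedModule_apply, ← hfπ, Module.Basis.ofIsLocalizedModule_repr_apply]
  · intro σ a c h
    ext w : 2
    apply lt_iota_injective
    have h1 := h (lt_iota O r w.1) w.2
    simp only [act_apply, mapM_apply] at h1
    have h2 : (((π σ * π σ - a • π σ + c • (1 : Module.End O (lt_Y U))) w : lt_Y U) :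
        Fin r → O) = M σ *ᵥ (M σ *ᵥ w.1) - a • (M σ *ᵥ w.1) + c • w.1 := rfl
    rw [h2, map_add, map_sub, map_smul, map_smul, lt_iota_mulVec, lt_iota_mulVec,
      ← IsScalarTower.algebraMap_smul (FractionRing O) a,
      ← IsScalarTower.algebraMap_smul (FractionRing O) c, h1]
    simp

end Fermat.Agent.S30Lib
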