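import Fermat.Agent.Lib.QuadRep.Algebra

set_option autoImplicit false
set_option linter.style.haveILetI false

namespace Fermat.Agent.S30Lib

open Polynomial Matrix
open Fermat.Agent.QRLib

theorem st_exists_min {k : Type} [Field k] {G : Type} [Group G]
    {V : Type} [AddCommGroup V] [Module k V] [FiniteDimensional k V] (π : G →* Module.End k V)
    (W : Submodule k V) (hW0 : W ≠ ⊥) (hW : ∀ g, ∀ v ∈ W, π g v ∈ W) :
    ∃ U : Submodule k V, U ≤ W ∧ U ≠ ⊥ ∧ (∀ g, ∀ x ∈ U, π g x ∈ U) ∧
      ∀ U' : Submodule k V, U' ≤ U → (∀ g, ∀ x ∈ U', π g x ∈ U') → U' = ⊥ ∨ U' = U := by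
  let S : Set (Submodule k V) := {U | U ≤ W ∧ U ≠ ⊥ ∧ (∀ g, ∀ x ∈ U, π g x ∈ U)}
  obtain ⟨U, hU, hmin⟩ := (measure (fun U : Submodule k V => Module.finrank k U)).wf.has_min S
    ⟨W, le_rfl, hW0, hW⟩
  obtain ⟨hUW, hUne, hUst⟩ := hU
  refine ⟨U, hUW, hUne, hUst, fun U' hle hst => ?_⟩
  by_cases hb : U' = ⊥
  · exact Or.inl hb
  · right
    have h1 := hmin U' ⟨hle.trans hUW, hb, hst⟩
    exact Submodule.eq_of_le_of_finrank_le hle (not_lt.1 h1)

theorem st_dim {k : Type} [Field k] (h2 : (2 : k) ≠ 0) {G : Type} [Group G]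
    {U : Type} [AddCommGroup U] [Module k U] [Nontrivial U]
    (π : G →* Module.End k U) (d : G →* kˣ) (t : G → k)
    (hq : ∀ g, π g * π g - t g • π g + ((d g : kˣ) : k) • (1 : Module.End k U) = 0)
    (hirr : ∀ U' : Submodule k U, (∀ g, ∀ x ∈ U', π g x ∈ U') → U' = ⊥ ∨ U' = ⊤)
    (c : G) (hc : c * c = 1) (hdc : d c = -1) :
    Module.finrank k U ≤ 2 := by
  have hcinv : c⁻¹ = c := inv_eq_of_mul_eq_one_left hc
  have hz : ((1 : Module.End k U) + π c, (1 : Module.End k U) - π c) ∈ q1R π d := by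
    have h1 := (q1R π d).add_mem (q1_one_mem (π := π) (d := d)) (q1_gen_mem (π := π) (d := d) c)
    rw [hcinv, hdc] at h1
    simpa [sub_eq_add_neg] using h1
  have hcc : π c * π c = 1 := by rw [← map_mul, hc, map_one]
  have h0 : ((1 : Module.End k U) + π c) * ((1 : Module.End k U) - π c) = 0 := by
    rw [add_mul, mul_sub, mul_sub, hcc]
    simp
  have hspan : ∀ u u' : U, (∀ w, w ∈ Submodule.span k {u, u'}) → Module.finrank k U ≤ 2 := by
    intro u u' h
    have htop : Submodule.span k ({u, u'} : Set U) = ⊤ := eq_top_iff.2 fun w _ => h w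
    classical
    have h1 := finrank_span_finset_le_card (R := k) ({u, u'} : Finset U)
    have h2 : (({u, u'} : Finset U) : Set U) = {u, u'} := by simp
    rw [Set.finrank, h2, htop, finrank_top] at h1
    exact h1.trans Finset.card_le_two
  have hone : ((1 : Module.End k U), (0 : Module.End k U)) ∈ q1R π d →
      Module.finrank k U ≤ 2 := by
    intro h10
    have hsc : ∀ h : G, ∃ τ : k, π h = τ • (1 : Module.End k U) := by
      intro h
      obtain ⟨τ, hτ⟩ := q1_add hq (q1_mul (q1_gen_mem (π := π) (d := d) h) h10)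
      exact ⟨τ, by simpa using hτ⟩
    obtain ⟨w₀, hw₀⟩ := exists_ne (0 : U)
    rcases hirr (Submodule.span k {w₀}) (by
      intro h x hx
      obtain ⟨τ, hτ⟩ := hsc h
      rw [hτ]
      simpa using Submodule.smul_mem _ τ hx) with h | h
    · exact absurd (by simpa using h) hw₀
    · rw [← finrank_top, ← h, finrank_span_singleton hw₀]
      norm_num
  by_cases hz1 : (1 : Module.End k U) + π c = 0
  · -- `π c = -1`
    apply hone
    have hpc : π c = -1 := (eq_neg_of_add_eq_zero_right hz1)
    have h3 := (q1R π d).smul_mem (2 : k)⁻¹ (q1_swap hz)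
    have h4 : (2 : k)⁻¹ • ((1 : Module.End k U) - π c, (1 : Module.End k U) + π c) = (1, 0) := by
      rw [hpc]
      ext1
      · simp only [Prod.smul_fst, sub_neg_eq_add]
        rw [← two_smul k (1 : Module.End k U), smul_smul, inv_mul_cancel₀ h2, one_smul]
      · simp
    simp only at h3
    rwa [h4] at h3
  · by_cases hz2 : (1 : Module.End k U) - π c = 0
    · apply hone
      have hpc : π c = 1 := (sub_eq_zero.1 hz2).symm
      have h3 := (q1R π d).smul_mem (2 : k)⁻¹ hz
      have h4 : (2 : k)⁻¹ • ((1 : Module.End k U) + π c, (1 : Module.End k U) - π c) = (1, 0) := by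
        rw [hpc]
        ext1
        · simp only [Prod.smul_fst]
          rw [← two_smul k (1 : Module.End k U), smul_smul, inv_mul_cancel₀ h2, one_smul]
        · simp
      rwa [h4] at h3
    · obtain ⟨u, u', h⟩ := q1_caseA hq hirr hz hz1 hz2 h0
      exact hspan u u' h

theorem exists_stable_of_quadratic {k : Type} [Field k] (h2 : (2 : k) ≠ 0) {G : Type} [Group G]
    {V : Type} [AddCommGroup V] [Module k V] [FiniteDimensional k V] (π : G →* Module.End k V)
    (W : Submodule k V) (hW0 : W ≠ ⊥) (hW : ∀ g, ∀ v ∈ W, π g v ∈ W)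
    (d : G →* kˣ) (t : G → k)
    (hq : ∀ g, ∀ v ∈ W, π g (π g v) - t g • π g v + ((d g : kˣ) : k) • v = 0)
    (c : G) (hc : c * c = 1) (hdc : d c = -1) :
    ∃ (U : Submodule k V) (hU : ∀ g, ∀ v ∈ U, π g v ∈ U), U ≤ W ∧
      (Module.finrank k U = 1 ∨ (Module.finrank k U = 2 ∧ ∀ g,
        LinearMap.charpoly ((π g).restrict (hU g)) = X ^ 2 - C (t g) * X + C ((d g : kˣ) : k))) := by
  obtain ⟨U, hUW, hUne, hUst, hUmin⟩ := st_exists_min π W hW0 hW
  let πU : G →* Module.End k U :=
    { toFun := fun g => (π g).restrict (hUst g)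
      map_one' := by
        ext x
        simp
      map_mul' := fun g h => by
        ext x
        simp }
  have hπU : ∀ g (x : U), ((πU g x : U) : V) = π g x := fun g x => rfl
  haveI : Nontrivial U := (Submodule.nontrivial_iff_ne_bot).2 hUne
  have hqU : ∀ g, πU g * πU g - t g • πU g + ((d g : kˣ) : k) • (1 : Module.End k U) = 0 := by
    intro g
    ext x
    have := hq g (x : V) (hUW x.2)
    simpa [hπU] using this
  have hirr : ∀ U' : Submodule k U, (∀ g, ∀ x ∈ U', πU g x ∈ U') → U' = ⊥ ∨ U' = ⊤ := by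
    intro U' hst
    rcases hUmin (U'.map U.subtype) (Submodule.map_subtype_le U U') (by
      intro g x hx
      obtain ⟨y, hy, rfl⟩ := (Submodule.mem_map).1 hx
      exact (Submodule.mem_map).2 ⟨πU g y, hst g y hy, rfl⟩) with h | h
    · left
      apply Submodule.map_injective_of_injective U.injective_subtype
      rw [h, Submodule.map_bot]
    · right
      apply Submodule.map_injective_of_injective U.injective_subtype
      rw [h, Submodule.map_subtype_top]
  have hle := st_dim h2 πU d t hqU hirr c hc hdc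
  have hpos : 0 < Module.finrank k U := Module.finrank_pos
  refine ⟨U, hUst, hUW, ?_⟩
  rcases (by omega : Module.finrank k U = 1 ∨ Module.finrank k U = 2) with h1 | h2'
  · exact Or.inl h1
  · refine Or.inr ⟨h2', fun g => ?_⟩
    change LinearMap.charpoly (πU g) = _
    by_cases hsc : ∃ c : k, πU g = c • (1 : Module.End k U)
    · obtain ⟨c, hc⟩ := hsc
      obtain ⟨ht, hd⟩ := q1_scalar hqU hirr (by omega) g c hc
      rw [hc, q1_charpoly_scalar h2', ht, hd]
    · push Not at hsc
      exact q1_charpoly_nonscalar h2' (πU g) (t g) (d g) (hqU g) hsc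

end Fermat.Agent.S30Lib
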