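import Fermat.Agent.S30.Dense
import Fermat.Agent.S30.Struct
import Fermat.Agent.S30.Lattice
import Fermat.Agent.S30.DimOne

/-!
# S30 library, (EN): quadratic Frobenius relations on a stable subspace give a two dimensional
adic Galois representation
-/

set_option autoImplicit false

namespace Fermat.Agent.S30Lib

open Polynomial Matrix

theorem exists_adicRep_of_quadratic (O : Type) [CommRing O] [IsDomain O]
    [IsDiscreteValuationRing O] [CharZero O]
    {r : ℕ} (M : GQ →* Matrix (Fin r) (Fin r) O) (hM : IsContM M)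
    (ε : GQ →* Oˣ) (hε : IsContC ε) (c : GQ) (hc : c * c = 1) (hεc : ε c = -1)
    (W : Submodule (FractionRing O) (Fin r → FractionRing O)) (hW0 : W ≠ ⊥)
    (hW : ∀ σ, ∀ v ∈ W, actE M σ v ∈ W)
    (D : ℕ) (hD : D ≠ 0) (a : ℕ → O)
    (hεF : ∀ ℓ : ℕ, ℓ.Prime → ¬ ℓ ∣ D → ∀ A : ValuationSubring Qbar, A.LiesOverPrime ℓ →
      ∀ σ : GQ, A.IsFrobeniusAt σ ℓ → ((ε σ : Oˣ) : O) = (ℓ : O))
    (hquad : ∀ ℓ : ℕ, ℓ.Prime → ¬ ℓ ∣ D → ∀ A : ValuationSubring Qbar, A.LiesOverPrime ℓ →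
      ∀ σ : GQ, A.IsFrobeniusAt σ ℓ → ∀ v ∈ W,
        actE M σ (actE M σ v) - algebraMap O (FractionRing O) (a ℓ) • actE M σ v
          + (ℓ : FractionRing O) • v = 0) :
    ∃ ρ : GaloisRepAdic O, (∀ σ, M σ = 1 → ε σ = 1 → ρ.ρ σ = 1) ∧
      ∀ ℓ : ℕ, ℓ.Prime → ¬ ℓ ∣ D → ∀ A : ValuationSubring Qbar, A.LiesOverPrime ℓ →
        ∀ σ : GQ, A.IsFrobeniusAt σ ℓ →
          LinearMap.charpoly (ρ.ρ σ) = X ^ 2 - C (a ℓ) * X + C (ℓ : O) := by
  choose t ht using exists_quadratic_all O M hM ε hε W hW D hD a hεF hquad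
  set d : GQ →* (FractionRing O)ˣ :=
    (Units.map (algebraMap O (FractionRing O) : O →* FractionRing O)).comp ε with hd
  have hdv : ∀ g, ((d g : (FractionRing O)ˣ) : FractionRing O) =
      algebraMap O (FractionRing O) ((ε g : Oˣ) : O) := fun g => rfl
  have hdc : d c = -1 := by
    apply Units.ext
    rw [hdv, hεc]
    simp
  obtain ⟨U, hU, hUW, hcase⟩ := exists_stable_of_quadratic (k := FractionRing O)
    (two_ne_zero) (actE M) W hW0 hW d t (fun g v hv => by rw [hdv]; exact ht g v hv) c hc hdc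
  obtain ⟨Y, iA, iM, iFr, iFi, π, hrank, hcont, hone, hchar, hrel⟩ := exists_lattice O M hM U hU
  -- the relation at Frobenius elements
  have hfrob : ∀ ℓ : ℕ, ℓ.Prime → ¬ ℓ ∣ D → ∀ A : ValuationSubring Qbar, A.LiesOverPrime ℓ →
      ∀ σ : GQ, A.IsFrobeniusAt σ ℓ →
        π σ * π σ - a ℓ • π σ + ((ε σ : Oˣ) : O) • (1 : Module.End O Y) = 0 := by
    intro ℓ hℓ hℓD A hA σ hσ
    apply hrel
    intro v hv
    rw [hεF ℓ hℓ hℓD A hA σ hσ, map_natCast]
    exact hquad ℓ hℓ hℓD A hA σ hσ v (hUW hv)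
  rcases hcase with h1 | ⟨h2, hcp⟩
  · obtain ⟨ρ, hρ1, hρ2⟩ := exists_rep_of_rank_one O (hrank.trans h1) π hcont ε hε
    refine ⟨ρ, fun σ hσ hσ' => hρ1 σ (hone σ hσ) hσ', ?_⟩
    intro ℓ hℓ hℓD A hA σ hσ
    rw [hρ2 σ (a ℓ) (hfrob ℓ hℓ hℓD A hA σ hσ), hεF ℓ hℓ hℓD A hA σ hσ]
  · refine ⟨{ V := Y, finrank_eq := hrank.trans h2, ρ := π, isAdicContinuous := hcont },
      fun σ hσ _ => hone σ hσ, ?_⟩
    intro ℓ hℓ hℓD A hA σ hσ
    show LinearMap.charpoly (π σ) = _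
    apply Polynomial.map_injective _ (IsFractionRing.injective O (FractionRing O))
    rw [hchar σ, hcp σ, hdv, hεF ℓ hℓ hℓD A hA σ hσ]
    -- `t σ = a ℓ`
    have hUne : U ≠ ⊥ := by
      intro h
      rw [h, finrank_bot] at h2
      omega
    obtain ⟨v, hvU, hv0⟩ := Submodule.exists_mem_ne_zero_of_ne_bot hUne
    have e1 := ht σ v (hUW hvU)
    have e2 := hquad ℓ hℓ hℓD A hA σ hσ v (hUW hvU)
    rw [hεF ℓ hℓ hℓD A hA σ hσ, map_natCast] at e1
    have e3 : (t σ - algebraMap O (FractionRing O) (a ℓ)) • actE M σ v = 0 := by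
      rw [sub_smul]
      have := congrArg₂ (· - ·) e2 e1
      simp only [sub_zero] at this
      rw [← this]
      abel
    have e4 : actE M σ v ≠ 0 := by
      intro h
      apply hv0
      have : actE M σ⁻¹ (actE M σ v) = v := by
        rw [← Module.End.mul_apply, ← map_mul, inv_mul_cancel, map_one, Module.End.one_apply]
      rw [← this, h, map_zero]
    have e5 : t σ = algebraMap O (FractionRing O) (a ℓ) := by
      rcases smul_eq_zero.1 e3 with h | h
      · exact sub_eq_zero.1 h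
      · exact absurd h e4
    rw [e5]
    simp

end Fermat.Agent.S30Lib
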